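/-
S55 engine E1 (Milne ADT I.1/I.4 at finite level) — FROZEN definitions, block ALG.
Chief architect: helper55.  Blueprint: coord/S55-E1.md.  Mathlib + T/Spec only.  NO sorry.

Setting: `G : Type` a group, `N : Rep ℤ G` (in applications finite and killed by `p`).
STANDARD PRESENTATION `0 → R → P → N → 0`, `P = ℤ[G]^{(N)}` = `Rep.free ℤ G N.V`.
-/
import Mathlib
import Fermat.Agent.S55.T.Spec

set_option autoImplicit false

open CategoryTheory CategoryTheory.Limits

namespace Fermat.Agent.S55.E1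

noncomputable section

variable {G : Type} [Group G]

/-- `P = ℤ[G]^{(N)}`: the free `ℤ[G]`-module on the underlying SET of `N`. -/
abbrev stdP (N : Rep.{0} ℤ G) : Rep.{0} ℤ G := Rep.free ℤ G N.V

/-- `ε : P → N`, `g • e_n ↦ g • n`. -/
def stdε (N : Rep.{0} ℤ G) : stdP N ⟶ N := Rep.freeLift ℤ G N (fun n : N.V => n)

/-- `R = ker ε`. -/
def stdR (N : Rep.{0} ℤ G) : Rep.{0} ℤ G := kernel (stdε N)

/-- The inclusion `R → P`. -/
def stdι (N : Rep.{0} ℤ G) : stdR N ⟶ stdP N := kernel.ι (stdε N)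

/-- The basis element `e_n ∈ P`. -/
def stdE (N : Rep.{0} ℤ G) (n : N.V) : (stdP N).V :=
  Finsupp.single n (MonoidAlgebra.single (1 : G) (1 : ℤ))

/-- The standard presentation as a short complex `R → P → N`. -/
def stdSC (N : Rep.{0} ℤ G) : ShortComplex (Rep.{0} ℤ G) :=
  ShortComplex.mk (stdι N) (stdε N) (kernel.condition (stdε N))

/-- `A(X) = Hom_G(R, X)`. -/
abbrev homA (N X : Rep.{0} ℤ G) : Type := stdR N ⟶ X

/-- `Bc(X) = Hom_G(P, X)`. -/
abbrev homB (N X : Rep.{0} ℤ G) : Type := stdP N ⟶ X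

/-- `res : Bc(X) → A(X)`, restriction to `R`. -/
def resBA (N X : Rep.{0} ℤ G) : homB N X →+ homA N X where
  toFun h := stdι N ≫ h
  map_zero' := by simp
  map_add' := by intros; simp

/-- `𝔈²(X) = H¹(G, Hom_ℤ(R, X))`. -/
abbrev E2 (N X : Rep.{0} ℤ G) : Type := groupCohomology ((Rep.ihom (stdR N)).obj X) 1

/-- `f ∈ A(X)` extends to `P`, i.e. lies in `res Bc(X)`. -/
def Extends {N X : Rep.{0} ℤ G} (f : homA N X) : Prop := ∃ h : homB N X, stdι N ≫ h = f

theorem stdε_stdE (N : Rep.{0} ℤ G) (n : N.V) : (stdε N).hom (stdE N n) = n := by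
  simp [stdε, stdE]
  exact @one_smul ℤ N.V _ N.hV2.toMulAction n

theorem stdε_surjective (N : Rep.{0} ℤ G) : Function.Surjective (stdε N).hom :=
  fun n => ⟨stdE N n, stdε_stdE N n⟩

theorem stdι_mono (N : Rep.{0} ℤ G) : Mono (stdι N) := by
  unfold stdι
  exact equalizer.ι_mono

/-- `0 → R → P → N → 0` is short exact. -/
theorem stdSC_shortExact (N : Rep.{0} ℤ G) : (stdSC N).ShortExact := by
  have h1 : Epi (stdε N) := (Rep.epi_iff_surjective _).2 (stdε_surjective N)
  have h2 : Mono (stdι N) := stdι_mono N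
  exact { exact := ShortComplex.exact_of_f_is_kernel _ (kernelIsKernel (stdε N))
          mono_f := h2
          epi_g := h1 }

/-- The connecting map `δ : H¹(G, N) → H²(G, R)` of the standard presentation. -/
def stdδ (N : Rep.{0} ℤ G) : groupCohomology N 1 →ₗ[ℤ] groupCohomology (stdR N) 2 :=
  (groupCohomology.δ (stdSC_shortExact N) 1 2 rfl).hom

/-- The pairing `⟨f, x⟩ = f_*(δ x) ∈ H²(G, X)` for `f ∈ A(X) = Hom_G(R, X)`, `x ∈ H¹(G, N)`. -/
def pair {N X : Rep.{0} ℤ G} (f : homA N X) (x : groupCohomology N 1) : groupCohomology X 2 :=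
  (T.coeffMap f 2).hom (stdδ N x)

/-- `(C, γ)` is a class module AT `p`: the class-module conditions for all `p`-subgroups. -/
def IsClassModuleAt (p : ℕ) [Finite G] (C : Rep.{0} ℤ G) (γ : groupCohomology C 2) : Prop :=
  ∀ H : Subgroup G, IsPGroup p H →
    IsZero (groupCohomology (T.resSub C H) 1) ∧
    Nat.card (groupCohomology (T.resSub C H) 2) = Nat.card H ∧
    ∀ x : groupCohomology (T.resSub C H) 2, ∃ n : ℕ, x = n • (T.resMap C H 2).hom γ

/-- `x` is `p`-primary torsion. -/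
def IsPPrimary (p : ℕ) {A : Type} [AddCommGroup A] (x : A) : Prop := ∃ k : ℕ, p ^ k • x = 0

/-- **T6p = Tate–Nakayama at `p`, degree (0,2)** (input from layer T; see coord/S55-E1.md §2). -/
def TateNakayamaAtSpec : Prop :=
  ∀ (p : ℕ), p.Prime → ∀ (G : Type) [Group G] [Fintype G]
    (C : Rep.{0} ℤ G) (γ : groupCohomology C 2), IsClassModuleAt p C γ →
    ∀ (R : Rep.{0} ℤ G), @Module.Free ℤ R.V _ _ R.hV2 → @Module.Finite ℤ R.V _ _ R.hV2 →
      (∀ χ : groupCohomology R 2 →+ groupCohomology C 2,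
        ∃ f : R ⟶ C, ∀ x : groupCohomology R 2, IsPPrimary p x → (T.coeffMap f 2).hom x = χ x) ∧
      (∀ f : R ⟶ C,
        (∀ x : groupCohomology R 2, IsPPrimary p x → (T.coeffMap f 2).hom x = 0) →
        ∃ (m : ℕ) (ψ : R.V →+ C.V), Nat.Coprime m p ∧ ∀ r : R.V, m • f.hom r = T.normAdd ψ r)

end

end Fermat.Agent.S55.E1
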