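/-
S55 engine E1 — block ALG, part 1: frozen Spec statements ALG1, ALG2, ALG4, ALG5.
Chief architect: helper55.  Blueprint: coord/S55-E1.md §3.  NO sorry: specs are `def … : Prop`.
Producers prove `theorem algN : ALGnSpec`; consumers take hypotheses.
-/
import Fermat.Agent.S55.E1.Defs

set_option autoImplicit false

open CategoryTheory CategoryTheory.Limits

namespace Fermat.Agent.S55.E1

/-- **ALG1.** For finite `G` and finite `N`: `R` is a lattice (f.g. free over `ℤ`) and the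
connecting map `δ : H¹(G, N) → H²(G, R)` is bijective (`Hⁿ(G, ℤ[G]^{(N)}) = 0` for `n ≥ 1`). -/
def ALG1Spec : Prop :=
  ∀ (G : Type) [Group G] [Finite G] (N : Rep.{0} ℤ G), Finite N.V →
    @Module.Free ℤ (stdR N).V _ _ (stdR N).hV2 ∧ @Module.Finite ℤ (stdR N).V _ _ (stdR N).hV2 ∧
    Function.Bijective (stdδ N)

/-- **ALG2.** If `p N = 0` then `p • f` extends to `P` for every `f ∈ Hom_G(R, X)`
(extension: `x ↦ f (p x)`).  No finiteness needed. -/
def ALG2Spec : Prop :=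
  ∀ (p : ℕ) (G : Type) [Group G] (N X : Rep.{0} ℤ G), (∀ n : N.V, p • n = 0) →
    ∀ f : homA N X, Extends (p • f)

/-- The hypothesis of the norm-kill lemma: `N_H(C) ⊆ p • C^H`. -/
def NormInP (p : ℕ) {G : Type} [Group G] (H : Subgroup G) [Fintype H] (C : Rep.{0} ℤ G) : Prop :=
  ∀ c : C.V, ∃ c₀ : C.V, (∀ h ∈ H, C.ρ h c₀ = c₀) ∧ ∑ h : H, C.ρ (h : G) c = p • c₀

/-- **ALG4 (norm-kill).** `H ⊴ G` acts trivially on `N`, `p N = 0`, `N_H(C) ⊆ p • C^H`.
Then for every additive `ψ : R → C` the norm `N_G ψ = ∑_σ σ ψ σ⁻¹` extends to a `G`-map `P → C`. -/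
def ALG4Spec : Prop :=
  ∀ (p : ℕ), p.Prime → ∀ (G : Type) [Group G] [Fintype G] (H : Subgroup G) [H.Normal] [Fintype H]
    (N C : Rep.{0} ℤ G), Finite N.V → (∀ n : N.V, p • n = 0) →
    (∀ h ∈ H, ∀ n : N.V, N.ρ h n = n) → NormInP p H C →
    ∀ ψ : (stdR N).V →+ C.V, ∃ k : homB N C,
      ∀ r : (stdR N).V, k.hom ((stdι N).hom r) = T.normAdd ψ r

/-- **ALG5 (α¹).** For a class module `(C, γ)` at `p` and T6p:
(a) `⟨res h, x⟩ = 0`; (b) every additive `χ : H¹(G, N) → H²(G, C)` is `⟨f, ·⟩`;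
(c) under the norm-kill hypotheses, `⟨f, ·⟩ = 0` implies that `f` extends to `P`.
Hence `Hom_G(R, C) / res Hom_G(P, C) ≅ Hom(H¹(G, N), H²(G, C))`. -/
def ALG5Spec : Prop :=
  ∀ (p : ℕ), p.Prime → ∀ (G : Type) [Group G] [Fintype G] (N C : Rep.{0} ℤ G)
    (γ : groupCohomology C 2), Finite N.V → (∀ n : N.V, p • n = 0) →
    IsClassModuleAt p C γ → TateNakayamaAtSpec →
    (∀ (h : homB N C) (x : groupCohomology N 1), pair (resBA N C h) x = 0) ∧
    (∀ χ : groupCohomology N 1 →+ groupCohomology C 2,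
      ∃ f : homA N C, ∀ x, pair f x = χ x) ∧
    (∀ (H : Subgroup G) [H.Normal] [Fintype H], (∀ h ∈ H, ∀ n : N.V, N.ρ h n = n) →
      NormInP p H C → ∀ f : homA N C, (∀ x, pair f x = 0) → Extends f)

/-- ALG5 from ALG1, ALG2, ALG4 (assembly leaf). -/
def ALG5AssemblySpec : Prop := ALG1Spec → ALG2Spec → ALG4Spec → ALG5Spec

end Fermat.Agent.S55.E1
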