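/-
S55 engine E1 — the arithmetic inputs, integration file.  Chief architect: helper55.  NO sorry.

Of the five inputs of `InputsSpecFin` (E1/Main3.lean) four are PROVED on main:
* T6p  `T.H719.tateNakayamaAt`          (helper719 + 837 + 353 + 295),
* L    `LocalSpec.H964.localSpec`       (helper964 + layer L),
* GD9  `Bridge.sUnitsDivSpec`           (helper655),
* GD10 `Bridge.h1FiniteSpec`            (helper655 + helper901).
The only remaining input is `GlobalInputSpec` (= `Tow.GlobalSpecFin S p` for all odd `p ∈ S`),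
the target of layer G (G-ADAPTER).

`S55_of_engine_global : EngineSpecFin → GlobalInputSpec → <frozen statement S55>`.
So `Fermat/Agent/S55.lean` will be
  `E1.S55_of_engine_global engineSpecFin globalInput hp2 S hpS M hsm hMur`.
-/
import Fermat.Agent.S55.E1.Main3
import Fermat.Agent.S55.T.T6ClosedH719
import Fermat.Agent.S55.LocalSpec.H964.Main
import Fermat.Agent.S55.Bridge.SUnitsDiv
import Fermat.Agent.S55.Bridge.H1FiniteSpec

set_option autoImplicit false

open CategoryTheory Module groupCohomology ExtCitation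

namespace Fermat.Agent.S55.E1

open Fermat.Agent.S55.Tow

/-- **The only open arithmetic input**: a good tower datum (final form) for all odd `p ∈ S`. -/
def GlobalInputSpec : Prop :=
  ∀ (p : ℕ) [Fact p.Prime], p ≠ 2 → ∀ (S : Finset Nat.Primes), pPrime p ∈ S → GlobalSpecFin S p

/-- All arithmetic inputs of the engine from the global one. -/
theorem inputsSpecFin_of (hG : GlobalInputSpec) : InputsSpecFin :=
  ⟨Fermat.Agent.S55.T.H719.tateNakayamaAt, fun p _ hp2 S hpS =>
    ⟨hG p hp2 S hpS,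
      Fermat.Agent.S55.LocalSpec.H964.localSpec p (Nat.Prime.ne_zero Fact.out),
      Fermat.Agent.S55.Bridge.sUnitsDivSpec (S := S) (p := p) hpS,
      Fermat.Agent.S55.Bridge.h1FiniteSpec S hpS⟩⟩

/-- S55 from the engine and the global input. -/
theorem S55_of_engine_global (hE : EngineSpecFin) (hG : GlobalInputSpec)
    {p : ℕ} [Fact p.Prime] (hp2 : p ≠ 2) (S : Finset Nat.Primes) (hpS : pPrime p ∈ S)
    (M : Rep (ZMod p) (AlgebraicClosure ℚ ≃ₐ[ℚ] AlgebraicClosure ℚ))
    [FiniteDimensional (ZMod p) M]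
    (hsm : ∀ m : M, ∃ F : IntermediateField ℚ (AlgebraicClosure ℚ), FiniteDimensional ℚ F ∧
      ∀ s ∈ F.fixingSubgroup, M.ρ s m = m)
    (hMur : ∀ q : Nat.Primes, q ∉ S → ∀ A : ValuationSubring (AlgebraicClosure ℚ),
      A.LiesOverPrime (q : ℕ) → ∀ g ∈ A.inertiaSubgroupIn ℚ, M.ρ g = 1) :
    ∃ B : sha₁ S (M.dualTwist (cycloChar p)) →ₗ[ZMod p] sha₂ S M →ₗ[ZMod p] ZMod p,
      (∀ y, (∀ x, B y x = 0) → y = 0) ∧ (∀ x, (∀ y, B y x = 0) → x = 0) :=
  S55_of_specsFin hE (inputsSpecFin_of hG) hp2 S hpS M hsm hMur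

end Fermat.Agent.S55.E1
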