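/-
S55 engine E1 — block ALG, part 2: frozen Spec statements ALG6, ALG7, ALG8 (+ the p-torsion leaf).
Sub-architect: helper957.  Blueprint: coord/S55-E1.md §3; details: coord/S55-E1-ALG678.md.
NO proof obligations in this file: specs are `def … : Prop`.
Producers prove `theorem algN : ALGnSpec`; consumers take hypotheses.

Setting: `G` finite, `φ : D →* G` injective (a decomposition group), `N : Rep ℤ G`,
`0 → R → P → N → 0` the standard presentation (`E1/Defs.lean`); `X : Rep ℤ D`,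
`J = Rep.coind φ X`, `j : J ⟶ C`.  As a `D`-module `(P, R)` is again a presentation of `N`
by a free `ℤ[D]`-module: the RESTRICTED presentation `resSC φ N`.
-/
import Fermat.Agent.S55.E1.SpecAlg
import Fermat.Agent.S55.H173.ShapiroInj

set_option autoImplicit false

open CategoryTheory CategoryTheory.Limits

namespace Fermat.Agent.S55.E1

noncomputable section

variable {G D : Type} [Group G] [Group D]

/-! ## Vocabulary -/

/-- Restriction along `φ : D →* G` in degree `n`: `Hⁿ(G, A) → Hⁿ(D, A)`. -/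
def resAlong (φ : D →* G) (A : Rep.{0} ℤ G) (n : ℕ) :
    groupCohomology A n →ₗ[ℤ] groupCohomology (Rep.res φ A) n :=
  (groupCohomology.map φ (𝟙 (Rep.res φ A)) n).hom

/-- The standard presentation of `N`, restricted to `D`: `0 → R|_D → P|_D → N|_D → 0`. -/
def resSC (φ : D →* G) (N : Rep.{0} ℤ G) : ShortComplex (Rep.{0} ℤ D) :=
  (stdSC N).map (Rep.resFunctor φ)

theorem resSC_shortExact (φ : D →* G) (N : Rep.{0} ℤ G) : (resSC φ N).ShortExact :=
  (Rep.shortExact_res φ).2 (stdSC_shortExact N)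

/-- The connecting map `δ_D : H¹(D, N) → H²(D, R)` of the restricted presentation. -/
def resδ (φ : D →* G) (N : Rep.{0} ℤ G) :
    groupCohomology (Rep.res φ N) 1 →ₗ[ℤ] groupCohomology (Rep.res φ (stdR N)) 2 :=
  (groupCohomology.δ (resSC_shortExact φ N) 1 2 rfl).hom

/-- The local pairing `⟨f, x⟩_D = f_*(δ_D x) ∈ H²(D, X)`, `f ∈ Hom_D(R, X)`, `x ∈ H¹(D, N)`. -/
def pairLoc (φ : D →* G) {N : Rep.{0} ℤ G} {X : Rep.{0} ℤ D} (f : Rep.res φ (stdR N) ⟶ X)
    (x : groupCohomology (Rep.res φ N) 1) : groupCohomology X 2 :=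
  (T.coeffMap f 2).hom (resδ φ N x)

/-- `f ↦ f^♭ = ev₁ ∘ f`: `Hom_G(R, Coind X) → Hom_D(R, X)` (Frobenius reciprocity). -/
def flat (φ : D →* G) {R : Rep.{0} ℤ G} {X : Rep.{0} ℤ D} (f : R ⟶ Rep.coind φ X) :
    Rep.res φ R ⟶ X :=
  (Rep.resFunctor φ).map f ≫ H173.ev1Hom φ X

/-- The Shapiro map `sh = (ev₁)_* ∘ res_φ : H²(G, Coind X) → H²(D, X)` (helper173). -/
abbrev sh2 (φ : D →* G) (X : Rep.{0} ℤ D) :
    groupCohomology (Rep.coind φ X) 2 →ₗ[ℤ] groupCohomology X 2 :=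
  (H173.shapiroHom φ X 2).hom

/-- `x ∈ H¹(G, N)` is locally trivial at all `i`: `x ∈ Ш¹_fin = ⋂_i ker res_i`. -/
def IsLocTriv {ι : Type} {Dc : ι → Type} [∀ i, Group (Dc i)] (φ : ∀ i, Dc i →* G)
    (N : Rep.{0} ℤ G) (x : groupCohomology N 1) : Prop :=
  ∀ i, resAlong (φ i) N 1 x = 0

/-- `Ш¹_fin = ⋂_i ker (res_i : H¹(G, N) → H¹(D_i, N))` as a subgroup of `H¹(G, N)`. -/
def shaFin {ι : Type} {Dc : ι → Type} [∀ i, Group (Dc i)] (φ : ∀ i, Dc i →* G)
    (N : Rep.{0} ℤ G) : AddSubgroup (groupCohomology N 1) where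
  carrier := {x | IsLocTriv φ N x}
  zero_mem' := fun i => map_zero _
  add_mem' := fun {a b} ha hb i => by
    show resAlong (φ i) N 1 (a + b) = 0
    rw [map_add, ha i, hb i, add_zero]
  neg_mem' := fun {a} ha i => by
    show resAlong (φ i) N 1 (-a) = 0
    rw [map_neg, ha i, neg_zero]

/-- `f ∈ A(C)` is a sum of local homs and of a hom which extends to `P`:
`f ∈ Σ_i j_i ∘ A(J_i) + res Bc(C)`. -/
def IsLocSum {ι : Type} [Fintype ι] {N C : Rep.{0} ℤ G} {J : ι → Rep.{0} ℤ G}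
    (j : ∀ i, J i ⟶ C) (f : homA N C) : Prop :=
  ∃ (fJ : ∀ i, homA N (J i)) (h : homB N C), f = ∑ i, fJ i ≫ j i + resBA N C h

/-! ## Specs -/

/-- **ALG6 (Shapiro and the restricted presentation).**  `G` finite, `φ : D →* G` injective.
(a) `δ_D : H¹(D, N) → H²(D, R)` is bijective and `res_φ ∘ δ = δ_D ∘ res_φ`;
(b) `f ↦ f^♭` is a bijection `Hom_G(R, Coind X) → Hom_D(R, X)`;
(c) `sh ⟨f, x⟩ = ⟨f^♭, res_φ x⟩_D`  (`sh` is bijective: `H173.shapiroHom_bijective`). -/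
def ALG6Spec : Prop :=
  ∀ (G D : Type) [Group G] [Group D] [Finite G] (φ : D →* G), Function.Injective φ →
    ∀ (N : Rep.{0} ℤ G),
    Function.Bijective (resδ φ N) ∧
    (∀ x : groupCohomology N 1,
      resAlong φ (stdR N) 2 (stdδ N x) = resδ φ N (resAlong φ N 1 x)) ∧
    ∀ X : Rep.{0} ℤ D,
      Function.Bijective (fun f : homA N (Rep.coind φ X) => flat φ f) ∧
      ∀ (f : homA N (Rep.coind φ X)) (x : groupCohomology N 1),
        sh2 φ X (pair f x) = pairLoc φ (flat φ f) (resAlong φ N 1 x)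

/-- **ALG7a (`p`-torsion of `H²` of a class module at `p`).**  `H²(G, C)[p]` is cyclic of order
`≤ p` (every nonzero element generates), and nonzero as soon as `p ∣ |G|`. -/
def ALG7aSpec : Prop :=
  ∀ (p : ℕ), p.Prime → ∀ (G : Type) [Group G] [Finite G] (C : Rep.{0} ℤ G)
    (γ : groupCohomology C 2), IsClassModuleAt p C γ →
    (∀ w w' : groupCohomology C 2, p • w = 0 → p • w' = 0 → w ≠ 0 → ∃ n : ℕ, w' = n • w) ∧
    (p ∣ Nat.card G → ∃ w : groupCohomology C 2, w ≠ 0 ∧ p • w = 0)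

/-- **ALG7 (local image).**  `(X, γ_X)` a class module at `p` for `D`, `(C, γ)` a class module
at `p` for `G`, `j : J = Coind X → C` with `j_*` injective on `H²(G, J)[p]` (GD3).  Then
`{⟨j ∘ f, ·⟩ : f ∈ A(J)} = {χ : H¹(G, N) → H²(G, C) | χ (ker res_φ) = 0}`. -/
def ALG7Spec : Prop :=
  ∀ (p : ℕ), p.Prime → ∀ (G D : Type) [Group G] [Group D] [Fintype G] [Finite D]
    (φ : D →* G), Function.Injective φ →
    ∀ (N C : Rep.{0} ℤ G) (γ : groupCohomology C 2) (X : Rep.{0} ℤ D)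
      (γX : groupCohomology X 2) (j : Rep.coind φ X ⟶ C),
    Finite N.V → (∀ n : N.V, p • n = 0) →
    IsClassModuleAt p C γ → IsClassModuleAt p X γX → TateNakayamaAtSpec →
    (∀ y : groupCohomology (Rep.coind φ X) 2, p • y = 0 → (T.coeffMap j 2).hom y = 0 → y = 0) →
    ∀ χ : groupCohomology N 1 →+ groupCohomology C 2,
      (∀ x, resAlong φ N 1 x = 0 → χ x = 0) ↔
        ∃ f : homA N (Rep.coind φ X), ∀ x, pair (f ≫ j) x = χ x

/-- **ALG8 (count), elementwise form.**  `(C, γ)` a class module at `p` with the norm-kill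
hypothesis of ALG4/ALG5(c) for some `H ⊴ G` acting trivially on `N`; for every `i` a local
datum `φ_i : D_i ↪ G`, `(X_i, γ_i)` class module at `p`, `j_i : J_i = Coind X_i → C` injective
on `H²[p]`.  With `Ш = Ш¹_fin = ⋂_i ker res_i ⊂ H¹(G, N)`:
(a) `⟨f, ·⟩` vanishes on `Ш`  ⇔  `f ∈ Σ_i j_i ∘ A(J_i) + res Bc(C)`;
(b) every additive `χ : H¹(G, N) → H²(G, C)` agrees on `Ш` with some `⟨f, ·⟩`;
(c) `|Hom(Ш, H²(G, C))| = |Ш|` and `Ш` is finite.
Hence `T := A(C)/(Σ_i j_i A(J_i) + res Bc(C)) ≅ Hom(Ш, H²(G, C))` has `|Ш|` elements. -/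
def ALG8Spec : Prop :=
  ∀ (p : ℕ), p.Prime → ∀ (G : Type) [Group G] [Fintype G] (N C : Rep.{0} ℤ G)
    (γ : groupCohomology C 2), Finite N.V → (∀ n : N.V, p • n = 0) →
    IsClassModuleAt p C γ → TateNakayamaAtSpec →
    ∀ (H : Subgroup G) [H.Normal] [Fintype H], (∀ h ∈ H, ∀ n : N.V, N.ρ h n = n) →
    NormInP p H C →
    ∀ (ι : Type) [Fintype ι] (Dc : ι → Type) [∀ i, Group (Dc i)] [∀ i, Finite (Dc i)]
      (φ : ∀ i, Dc i →* G), (∀ i, Function.Injective (φ i)) →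
    ∀ (X : ∀ i, Rep.{0} ℤ (Dc i)) (γX : ∀ i, groupCohomology (X i) 2)
      (j : ∀ i, Rep.coind (φ i) (X i) ⟶ C),
    (∀ i, IsClassModuleAt p (X i) (γX i)) →
    (∀ i, ∀ y : groupCohomology (Rep.coind (φ i) (X i)) 2,
      p • y = 0 → (T.coeffMap (j i) 2).hom y = 0 → y = 0) →
    (∀ f : homA N C, (∀ x, IsLocTriv φ N x → pair f x = 0) ↔ IsLocSum j f) ∧
    (∀ χ : groupCohomology N 1 →+ groupCohomology C 2,
      ∃ f : homA N C, ∀ x, IsLocTriv φ N x → pair f x = χ x) ∧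
    Finite (shaFin φ N) ∧
    Nat.card (shaFin φ N →+ groupCohomology C 2) = Nat.card (shaFin φ N)

/-- ALG8 from ALG5, ALG7, ALG7a (assembly leaf; linear algebra over `𝔽_p`). -/
def ALG8AssemblySpec : Prop := ALG5Spec → ALG7Spec → ALG7aSpec → ALG8Spec

end

end Fermat.Agent.S55.E1
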