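/-
S55 engine E1 — block ALG, part 3: frozen Spec statements ALG9 (edge map), ALG10 (transitions),
ALG11 (local injectivity).   Sub-architect: helper895.   Blueprint: coord/S55-E1.md §3.
Definitions: `E1/Tr/Defs.lean`.   NO sorry: specs are `def … : Prop`.
Producers prove `theorem xxx : XxxSpec`; consumers take hypotheses.

Standing data of a CHANGE OF GROUP:  `π : G' →* G`, `ν : N' ⟶ Rep.res π N` (resp. an
isomorphism `ν : N' ≅ Rep.res π N`), `ι : Rep.res π X ⟶ X'`.  Special cases: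
* `π = id`, `ν = 𝟙`: naturality in the coefficient module `X`;
* `π = D.subtype`, `ν = 𝟙`, `ι = 𝟙`: restriction to a subgroup `D ≤ G`;
* `π : Gal(F'/ℚ) ↠ Gal(F/ℚ)`: the transition maps of the tower.
-/
import Fermat.Agent.S55.E1.Tr.Defs

set_option autoImplicit false

open CategoryTheory CategoryTheory.Limits

namespace Fermat.Agent.S55.E1

open Fermat.Agent.S55.T.H719 (ihomLin)

/-! ## ALG9: the edge map -/

/-- **ALG9 (edge).** `δ' : H¹(G, 𝔹) → H²(G, Hom_ℤ(N, X))` is bijective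
(`Hom_ℤ(ℤ[G]^{(N)}, X)` is coinduced, hence acyclic). -/
def ALG9Spec : Prop :=
  ∀ (G : Type) [Group G] [Finite G] (N X : Rep.{0} ℤ G), Function.Bijective (edgeδ N X)

/-- **ALG9 (a), module form.** If `p N = 0` (`p` prime), every additive `φ : R → X` with
`φ(R) ⊆ p X` extends to an additive map `P → X`, i.e. `φ ∈ 𝔹`. -/
def ALG9aSpec : Prop :=
  ∀ (p : ℕ), p.Prime → ∀ (G : Type) [Group G] (N X : Rep.{0} ℤ G), (∀ n : N.V, p • n = 0) →
    ∀ φ : ((Rep.ihom (stdR N)).obj X).V,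
      (∀ r : (stdR N).V, ∃ x : X.V, ihomLin φ r = p • x) → φ ∈ ihomImage (stdι N) X

/-- **ALG9 (a), cocycle form.** A class in `𝔈²(X)` represented by a `1`-cocycle all of whose
values map `R` into `p X` lies in the image of `H¹(G, 𝔹)`, hence (ALG9) in the image of `e`. -/
def ALG9aCocycleSpec : Prop :=
  ∀ (p : ℕ), p.Prime → ∀ (G : Type) [Group G] (N X : Rep.{0} ℤ G), (∀ n : N.V, p • n = 0) →
    ∀ c : groupCohomology.cocycles₁ ((Rep.ihom (stdR N)).obj X),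
      (∀ (g : G) (r : (stdR N).V), ∃ x : X.V, ihomLin (c g) r = p • x) →
      ∃ b : groupCohomology (edgeB N X) 1, edgeIncl N X b = groupCohomology.H1π _ c

/-! ## ALG10: transitions -/

/-- **ALG10 (functoriality).** `tr ∘ tr = tr` for `G'' → G' → G`, on `P`, `R` (elementwise). -/
def ALG10CompSpec : Prop :=
  ∀ (G G' G'' : Type) [Group G] [Group G'] [Group G''] (π : G' →* G) (π' : G'' →* G')
    (N : Rep.{0} ℤ G) (N' : Rep.{0} ℤ G') (N'' : Rep.{0} ℤ G'')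
    (ν : N' ⟶ Rep.res π N) (ν' : N'' ⟶ Rep.res π' N') (ν'' : N'' ⟶ Rep.res (π.comp π') N),
    (∀ n : N''.V, ν''.hom n = ν.hom (ν'.hom n)) →
    (∀ x : (stdP N'').V, (trP (π.comp π') ν'').hom x = (trP π ν).hom ((trP π' ν').hom x)) ∧
    (∀ r : (stdR N'').V, (trR (π.comp π') ν'').hom r = (trR π ν).hom ((trR π' ν').hom r))

/-- **ALG10 (functoriality on `𝔈²`).** `tr ∘ tr = tr` on `𝔈²` and on `Hⁿ`. -/
def ALG10CompE2Spec : Prop :=
  ∀ (G G' G'' : Type) [Group G] [Group G'] [Group G''] (π : G' →* G) (π' : G'' →* G')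
    (N : Rep.{0} ℤ G) (N' : Rep.{0} ℤ G') (N'' : Rep.{0} ℤ G'')
    (ν : N' ⟶ Rep.res π N) (ν' : N'' ⟶ Rep.res π' N') (ν'' : N'' ⟶ Rep.res (π.comp π') N)
    (X : Rep.{0} ℤ G) (X' : Rep.{0} ℤ G') (X'' : Rep.{0} ℤ G'')
    (ι : Rep.res π X ⟶ X') (ι' : Rep.res π' X' ⟶ X'') (ι'' : Rep.res (π.comp π') X ⟶ X''),
    (∀ n : N''.V, ν''.hom n = ν.hom (ν'.hom n)) →
    (∀ x : X.V, ι''.hom x = ι'.hom (ι.hom x)) →
    (∀ y : E2 N X, trE2 (π.comp π') ν'' ι'' y = trE2 π' ν' ι' (trE2 π ν ι y)) ∧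
    (∀ (n : ℕ) (z : groupCohomology X n),
      infCoeff (π.comp π') ι'' n z = infCoeff π' ι' n (infCoeff π ι n z))

/-- **ALG10 (edge).** `tr` commutes with `δ'` and `incl_*`, hence with the edge map `e`. -/
def ALG10EdgeSpec : Prop :=
  ∀ (G G' : Type) [Group G] [Group G'] (π : G' →* G)
    (N : Rep.{0} ℤ G) (N' : Rep.{0} ℤ G') (ν : N' ⟶ Rep.res π N)
    (X : Rep.{0} ℤ G) (X' : Rep.{0} ℤ G') (ι : Rep.res π X ⟶ X')
    (b : groupCohomology (edgeB N X) 1),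
    edgeδ N' X' ((groupCohomology.map π (trEdgeB π ν ι) 1).hom b) =
      (groupCohomology.map π (trIhom π ν ι) 2).hom (edgeδ N X b) ∧
    edgeIncl N' X' ((groupCohomology.map π (trEdgeB π ν ι) 1).hom b) =
      trE2 π ν ι (edgeIncl N X b)

/-- Consequence of `ALG10EdgeSpec`: `y = e(x) ⇒ tr y = e(inf x)`. -/
theorem isEdge_tr_of (h : ALG10EdgeSpec) {G G' : Type} [Group G] [Group G'] (π : G' →* G)
    {N : Rep.{0} ℤ G} {N' : Rep.{0} ℤ G'} (ν : N' ⟶ Rep.res π N)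
    {X : Rep.{0} ℤ G} {X' : Rep.{0} ℤ G'} (ι : Rep.res π X ⟶ X')
    {x : groupCohomology ((Rep.ihom N).obj X) 2} {y : E2 N X} (hxy : IsEdge x y) :
    IsEdge ((groupCohomology.map π (trIhom π ν ι) 2).hom x) (trE2 π ν ι y) := by
  obtain ⟨b, rfl, rfl⟩ := hxy
  obtain ⟨h1, h2⟩ := h G G' π N N' ν X X' ι b
  exact ⟨_, h1, h2⟩

/-- **ALG10 (pairing).** `⟨tr f, inf x⟩ = inf_ι ⟨f, x⟩`, where `inf x = (ν⁻¹)_* (inflation x)`. -/
def ALG10PairSpec : Prop :=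
  ∀ (G G' : Type) [Group G] [Group G'] (π : G' →* G)
    (N : Rep.{0} ℤ G) (N' : Rep.{0} ℤ G') (ν : N' ≅ Rep.res π N)
    (X : Rep.{0} ℤ G) (X' : Rep.{0} ℤ G') (ι : Rep.res π X ⟶ X')
    (f : homA N X) (x : groupCohomology N 1),
    pair (trA π ν.hom ι f) ((groupCohomology.map π ν.inv 1).hom x) = infCoeff π ι 2 (pair f x)

/-! ## ALG11: local injectivity -/

/-- **ALG11 (local injectivity).** `π : G' ↠ G` with kernel `H`, `N' ≅ res_π N`,
`ι : X → X'` injective with image the `H`-invariants, `H¹(H, X') = 0` (Hilbert 90).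
Then `tr : 𝔈²_G(X) → 𝔈²_{G'}(X')` is injective. -/
def ALG11Spec : Prop :=
  ∀ (G G' : Type) [Group G] [Group G'] [Finite G'] (π : G' →* G), Function.Surjective π →
    ∀ (N : Rep.{0} ℤ G) (N' : Rep.{0} ℤ G') (ν : N' ≅ Rep.res π N)
      (X : Rep.{0} ℤ G) (X' : Rep.{0} ℤ G') (ι : Rep.res π X ⟶ X'),
      Function.Injective ι.hom →
      (∀ x' : X'.V, (∀ h ∈ π.ker, X'.ρ h x' = x') → ∃ x : X.V, ι.hom x = x') →
      IsZero (groupCohomology (T.resSub X' π.ker) 1) →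
      Function.Injective (trE2 π ν.hom ι)

end Fermat.Agent.S55.E1
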