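import Mathlib

/-!
# S55 / engine E1 / block LIM (helper474): the abstract limit argument

This file contains the pure bookkeeping behind steps LIM0 and LIM6 of `coord/S55-E1.md`, with
NO reference to Galois groups.  It avoids Mathlib's `DirectLimit`: a "colimit" is described
elementwise (jointly surjective + separated), exactly the shape in which the bridge layer
describes the Prelude cohomology groups.

Setting: a directed preorder `I` (the levels), four systems of additive groups

* `Sh i`  (think `Ш²_F ⊆ H²(G_F, N')`), with colimit `X` (think `sha₂ S N'`),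
* `K i`   (think `ker (𝔈²_F(E) → 𝔈²_F(J))`),
* `T' i`  (think `A_F(C') / im A_F(J)`),
* `T i`   (think `A_F(C) / (im A_F(J) + res Bc_F(C))`), finite of constant cardinality `s`,

and level-wise maps `e : Sh → K`, `∂ : T' → K` (bijective), `c : T' → T`, compatible with the
transition maps.  If `e` and `c` are *eventually injective* and *eventually surjective* and the
transition maps of `T` are injective, then `X` is finite and `Nat.card X = s`.
-/

set_option autoImplicit false
set_option linter.unusedSectionVars false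
set_option linter.style.haveILetI false

namespace Fermat.Agent.S55.E1

/-- A system of additive groups over a preorder, with functorial transition maps. -/
structure AddSys (I : Type) [Preorder I] where
  /-- the groups -/
  obj : I → Type
  /-- the group structures -/
  grp : ∀ i, AddCommGroup (obj i)
  /-- the transition maps -/
  tr : ∀ {i j : I}, i ≤ j → obj i →+ obj j
  tr_tr : ∀ {i j k : I} (hij : i ≤ j) (hjk : j ≤ k) (x : obj i),
    tr hjk (tr hij x) = tr (hij.trans hjk) x

attribute [instance] AddSys.grp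

namespace AddSys

variable {I : Type} [Preorder I]

/-- A morphism of systems: level-wise additive maps commuting with the transition maps. -/
structure Hom (A B : AddSys I) where
  /-- the level-wise maps -/
  app : ∀ i, A.obj i →+ B.obj i
  comm : ∀ {i j : I} (hij : i ≤ j) (x : A.obj i), app j (A.tr hij x) = B.tr hij (app i x)

/-- `f` is eventually injective: elements of the kernel die at a higher level. -/
def Hom.EvInj {A B : AddSys I} (f : Hom A B) : Prop :=
  ∀ i (x : A.obj i), f.app i x = 0 → ∃ j, ∃ hij : i ≤ j, A.tr hij x = 0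

/-- `f` is eventually surjective: every element is hit after pushing it to a higher level. -/
def Hom.EvSurj {A B : AddSys I} (f : Hom A B) : Prop :=
  ∀ i (y : B.obj i), ∃ j, ∃ hij : i ≤ j, ∃ x : A.obj j, f.app j x = B.tr hij y

/-- `f` is a level-wise bijection. -/
def Hom.LevelBij {A B : AddSys I} (f : Hom A B) : Prop :=
  ∀ i, Function.Bijective (f.app i)

/-- `X`, with the maps `ι i : A.obj i → X`, is a colimit of the system `A`
(elementwise description). -/
structure IsColim (A : AddSys I) (X : Type) [AddCommGroup X] (ι : ∀ i, A.obj i →+ X) : Prop where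
  compat : ∀ {i j : I} (hij : i ≤ j) (x : A.obj i), ι j (A.tr hij x) = ι i x
  surj : ∀ x : X, ∃ i, ∃ a : A.obj i, ι i a = x
  sep : ∀ i (a : A.obj i), ι i a = 0 → ∃ j, ∃ hij : i ≤ j, A.tr hij a = 0

end AddSys

section Main

open AddSys

variable {I : Type} [Preorder I] [IsDirected I (· ≤ ·)]
variable {Sh K T' T : AddSys I} {X : Type} [AddCommGroup X] {ι : ∀ i, Sh.obj i →+ X}

/-- The relation between `X` and `T.obj i₀` underlying the comparison bijection:
`x` and `t` are related if at some level `j ≥ i₀` there are `a ∈ Sh j` representing `x` and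
`b ∈ T' j` with `∂ b = e a` and `c b = tr t`. -/
def LimRel (ι : ∀ i, Sh.obj i →+ X) (e : Hom Sh K) (d : Hom T' K) (c : Hom T' T) (i₀ : I)
    (x : X) (t : T.obj i₀) : Prop :=
  ∃ j, ∃ h : i₀ ≤ j, ∃ a : Sh.obj j, ∃ b : T'.obj j,
    ι j a = x ∧ d.app j b = e.app j a ∧ c.app j b = T.tr h t

variable (hX : IsColim Sh X ι) (e : Hom Sh K) (d : Hom T' K) (c : Hom T' T) (i₀ : I)

include hX in
/-- A witness of `LimRel` can be pushed to any higher level. -/
theorem LimRel.push {x : X} {t : T.obj i₀} {j : I} {h : i₀ ≤ j} {a : Sh.obj j} {b : T'.obj j}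
    (h1 : ι j a = x) (h2 : d.app j b = e.app j a) (h3 : c.app j b = T.tr h t)
    {k : I} (hjk : j ≤ k) :
    ι k (Sh.tr hjk a) = x ∧ d.app k (T'.tr hjk b) = e.app k (Sh.tr hjk a) ∧
      c.app k (T'.tr hjk b) = T.tr (h.trans hjk) t := by
  refine ⟨by rw [hX.compat, h1], by rw [d.comm, e.comm, h2], ?_⟩
  rw [c.comm, h3, T.tr_tr]

include hX in
/-- Two representatives of the same element of the colimit agree at a higher level. -/
theorem exists_tr_eq_of_ι_eq {j k : I} {a : Sh.obj j} {a' : Sh.obj k}
    (h : ι j a = ι k a') :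
    ∃ n, ∃ hjn : j ≤ n, ∃ hkn : k ≤ n, Sh.tr hjn a = Sh.tr hkn a' := by
  obtain ⟨m, hjm, hkm⟩ := exists_ge_ge j k
  have h0 : ι m (Sh.tr hjm a - Sh.tr hkm a') = 0 := by
    rw [map_sub, hX.compat, hX.compat, h, sub_self]
  obtain ⟨n, hmn, hn⟩ := hX.sep m _ h0
  refine ⟨n, hjm.trans hmn, hkm.trans hmn, ?_⟩
  rw [map_sub, sub_eq_zero, Sh.tr_tr, Sh.tr_tr] at hn
  exact hn

variable (hd : d.LevelBij) (hT_inj : ∀ {i j : I} (hij : i ≤ j), Function.Injective (T.tr hij))

include hX hd hT_inj in
/-- `LimRel` is functional: `t` is determined by `x`. -/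
theorem LimRel.unique_right {x : X} {t t' : T.obj i₀}
    (h : LimRel ι e d c i₀ x t) (h' : LimRel ι e d c i₀ x t') : t = t' := by
  obtain ⟨j, hj, a, b, h1, h2, h3⟩ := h
  obtain ⟨k, hk, a', b', h1', h2', h3'⟩ := h'
  obtain ⟨n, hjn, hkn, hn⟩ := exists_tr_eq_of_ι_eq hX (h1.trans h1'.symm)
  obtain ⟨-, p2, p3⟩ := LimRel.push hX e d c i₀ h1 h2 h3 hjn
  obtain ⟨-, q2, q3⟩ := LimRel.push hX e d c i₀ h1' h2' h3' hkn
  have hb : T'.tr hjn b = T'.tr hkn b' := (hd n).1 (by rw [p2, q2, hn])
  apply hT_inj (hj.trans hjn)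
  rw [← p3, ← q3, hb]

variable (he_inj : e.EvInj) (hc_inj : c.EvInj)

include hX hd he_inj hc_inj in
/-- `LimRel` is injective: `x` is determined by `t`. -/
theorem LimRel.unique_left {x x' : X} {t : T.obj i₀}
    (h : LimRel ι e d c i₀ x t) (h' : LimRel ι e d c i₀ x' t) : x = x' := by
  obtain ⟨j, hj, a, b, h1, h2, h3⟩ := h
  obtain ⟨k, hk, a', b', h1', h2', h3'⟩ := h'
  obtain ⟨n, hjn, hkn⟩ := exists_ge_ge j k
  obtain ⟨p1, p2, p3⟩ := LimRel.push hX e d c i₀ h1 h2 h3 hjn
  obtain ⟨q1, q2, q3⟩ := LimRel.push hX e d c i₀ h1' h2' h3' hkn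
  -- `c (b - b') = 0` at level `n`
  have hc0 : c.app n (T'.tr hjn b - T'.tr hkn b') = 0 := by
    rw [map_sub, p3, q3, sub_self]
  obtain ⟨m, hnm, hm⟩ := hc_inj n _ hc0
  -- hence `e (a - a') = 0` at level `m`
  have he0 : e.app m (Sh.tr hnm (Sh.tr hjn a - Sh.tr hkn a')) = 0 := by
    rw [e.comm, map_sub, ← p2, ← q2, ← map_sub, ← d.comm, hm, map_zero]
  obtain ⟨l, hml, hl⟩ := he_inj m _ he0
  have := congrArg (ι l) hl
  rw [map_zero, hX.compat, hX.compat, map_sub, p1, q1, sub_eq_zero] at this
  exact this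

variable (he_surj : e.EvSurj) (hc_surj : c.EvSurj)

include hX hd he_surj hc_surj in
/-- `LimRel` is surjective: every `t` is related to some `x`. -/
theorem LimRel.exists_left (t : T.obj i₀) : ∃ x : X, LimRel ι e d c i₀ x t := by
  obtain ⟨j, hj, b, hb⟩ := hc_surj i₀ t
  obtain ⟨k, hjk, a, ha⟩ := he_surj j (d.app j b)
  refine ⟨ι k a, k, hj.trans hjk, a, T'.tr hjk b, rfl, ?_, ?_⟩
  · rw [d.comm, ha]
  · rw [c.comm, hb, T.tr_tr]

variable (s : ℕ) (hs : 0 < s) (hT_card : ∀ i, Nat.card (T.obj i) = s)

include hs hT_card hT_inj in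
/-- The transition maps of `T` are bijective. -/
theorem tr_bijective_of_card {i j : I} (hij : i ≤ j) : Function.Bijective (T.tr hij) := by
  haveI : Finite (T.obj j) := Nat.finite_of_card_ne_zero (by rw [hT_card j]; exact hs.ne')
  exact (hT_inj hij).bijective_of_nat_card_le (by rw [hT_card i, hT_card j])

include hX hd hs hT_card hT_inj in
/-- `LimRel` is total: every `x` is related to some `t`. -/
theorem LimRel.exists_right (x : X) : ∃ t : T.obj i₀, LimRel ι e d c i₀ x t := by
  obtain ⟨i, a, ha⟩ := hX.surj x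
  obtain ⟨j, hij, hj⟩ := exists_ge_ge i i₀
  obtain ⟨b, hb⟩ := (hd j).2 (e.app j (Sh.tr hij a))
  obtain ⟨t, ht⟩ := (tr_bijective_of_card hT_inj s hs hT_card hj).2 (c.app j b)
  exact ⟨t, j, hj, Sh.tr hij a, b, by rw [hX.compat, ha], hb, ht.symm⟩

include hX hd he_inj he_surj hc_inj hc_surj hs hT_card hT_inj in
/-- **Abstract limit argument (LIM0 + LIM6).**  If `X = colim Sh`, `e : Sh → K` and
`c : T' → T` are eventually injective and eventually surjective, `∂ : T' → K` is a level-wise
bijection, and `T` has injective transition maps and constant finite cardinality `s`, then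
`X` is finite of cardinality `s`. -/
theorem card_colim_eq [Nonempty I] : Finite X ∧ Nat.card X = s := by
  obtain ⟨i₀⟩ := ‹Nonempty I›
  have hex : ∀ x : X, ∃ t : T.obj i₀, LimRel ι e d c i₀ x t :=
    LimRel.exists_right hX e d c i₀ hd hT_inj s hs hT_card
  choose φ hφ using hex
  have hinj : Function.Injective φ := by
    intro x x' hxx
    have h1 := hφ x
    have h2 := hφ x'
    rw [hxx] at h1
    exact LimRel.unique_left hX e d c i₀ hd he_inj hc_inj h1 h2
  have hsurj : Function.Surjective φ := by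
    intro t
    obtain ⟨x, hx⟩ := LimRel.exists_left hX e d c i₀ hd he_surj hc_surj t
    exact ⟨x, LimRel.unique_right hX e d c i₀ hd hT_inj (hφ x) hx⟩
  haveI : Finite (T.obj i₀) :=
    Nat.finite_of_card_ne_zero (by rw [hT_card i₀]; exact hs.ne')
  refine ⟨Finite.of_injective φ hinj, ?_⟩
  rw [← hT_card i₀]
  exact Nat.card_congr (Equiv.ofBijective φ ⟨hinj, hsurj⟩)

end Main

end Fermat.Agent.S55.E1
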