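/-
S55 engine E1 — block LIM: CONSUMER SPECS and the ENGINE.
Sub-architect E1-LIM: helper474.  Blueprint: coord/S55-E1.md §4, coord/S55-E1-LIM.md.  All proofs complete.

Objects: `E1/Lim/Obj.lean`; systems `c.sysSh, c.sysK, c.sysT1, c.sysT` over the levels above the
base level of a context `c : Lim.Ctx S p`: `E1/Lim/Sys.lean` (where `sha₂ S M = colim Ш²_F` is
proved, `Ctx.sh_isColim`).  Abstract counting argument: `E1/LimAbs.lean` (`card_colim_eq`).

LEAVES (each a `Prop`; producers prove `theorem limN : LIMnSpec`):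
* `LIMBaseSpec` : a level trivialising `M` and `N = M^∨(1)` and containing `μ_p` exists;
* `LIM4Spec`    : `|Ш¹_F(N)| = |sha₁ S N|` for all large `F`           (helper603 + adapter);
* `LIM1Spec`    : `∂ : T' → K` level-wise bijective morphism of systems (ALG3 + ALG10-∂);
* `LIM2Spec`    : `T' → T` eventually injective and surjective           (GD5, GD5b, ALG2);
* `LIM3Spec`    : `|T_F| = |sha₁ S N|`, `tr : T_F → T_F'` injective      (ALG8, ALG10P, GD8);
* `LIM5Spec`    : `e : Ш² → K` eventually injective and surjective       (ALG9, 9a, 10E, 11, GD9, L).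
ENGINE: `engineSpecFin_of : LIMBaseSpec → LIM4Spec → LIM1Spec → LIM2Spec → LIM3Spec → LIM5Spec →
  EngineSpecFin`.
-/
import Fermat.Agent.S55.E1.Lim.Sys
import Fermat.Agent.S55.E1.Main3

set_option autoImplicit false

open CategoryTheory CategoryTheory.Limits groupCohomology ExtCitation Module

namespace Fermat.Agent.S55.E1.Lim

open Fermat.Agent.S55.Tow Fermat.Agent.S55.E1

noncomputable section

variable {S : Finset Nat.Primes} {p : ℕ} [Fact p.Prime]

/-- The decomposition maps `Gal(F_q/ℚ_q) → Gal(F/ℚ)`, `q ∈ S`. -/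
abbrev decS (L : Level S) (q : S) : L.Dec q.1 →* L.Gal := L.decHom q.1

/-- The finite-level `Ш¹_F(N) = ⋂_{q ∈ S} ker (H¹(Gal(F/ℚ), N) → H¹(Gal(F_q/ℚ_q), N))`. -/
abbrev Ctx.sha1L (c : Ctx S p) (L : c.Idx) : AddSubgroup (groupCohomology (c.NL L) 1) :=
  shaFin (decS L.1) (c.NL L)

/-- The standing hypotheses on a context: all inputs of the engine, at a base level which is
large enough (GD6 for some `F₀ ⊆ base`, LIM4 above `base`). -/
structure Ctx.Good (c : Ctx S p) : Prop where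
  hp2 : p ≠ 2
  hpS : pPrime p ∈ S
  good : c.D.IsGoodFin p
  adm : IsAdmissible S c.M
  fin : Module.Finite (ZMod p) c.M
  mu : c.base.HasMu p
  tn : TateNakayamaAtSpec
  loc : LocalSpec p
  div : SUnitsDivSpec S p
  h1fin : H1FiniteSpec S p
  /-- GD6: the norm-kill hypothesis holds above the base level, relative to some `F₀`. -/
  norm : ∃ (L₀ : Level S) (h₀ : L₀ ≤ c.base), L₀.HasMu p ∧
    (∀ s ∈ L₀.U, ∀ n : c.N, c.N.ρ s n = n) ∧
    ∀ (L : Level S) (h : c.base ≤ L),
      @NormInP p L.Gal _ (Level.relGal (h₀.trans h)) (Fintype.ofFinite _) (c.D.C L)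
  /-- LIM4: above the base level `Ш¹_F(N)` has the cardinality of `sha₁ S N`. -/
  sha1 : ∀ L : c.Idx, Nat.card (c.sha1L L) = Nat.card (sha₁ S c.N)
  /-- `sha₁ S N` is finite. -/
  sha1fin : Finite (sha₁ S c.N)

/-! ## The leaves -/

/-- **LIM-BASE.** A level trivialising `M` and `N = M^∨(1)` and containing `μ_p`. -/
def LIMBaseSpec : Prop :=
  ∀ (p : ℕ) [Fact p.Prime], p ≠ 2 → ∀ (S : Finset Nat.Primes), pPrime p ∈ S →
    ∀ (M : Rep.{0, 0, 0} (ZMod p) GQ) [FiniteDimensional (ZMod p) M], IsAdmissible S M →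
    ∃ L₀ : Level S, L₀.HasMu p ∧ (∀ s ∈ L₀.U, ∀ m : M, M.ρ s m = m) ∧
      (∀ s ∈ L₀.U, ∀ n : M.dualTwist (cycloChar p), (M.dualTwist (cycloChar p)).ρ s n = n)

/-- **LIM4.** `|Ш¹_F(N)| = |sha₁ S N|` for all large levels `F`, and `sha₁ S N` is finite
(`N` any finite-dimensional `𝔽_p`-representation trivialised by a level; `p` odd). -/
def LIM4Spec : Prop :=
  ∀ (p : ℕ) [Fact p.Prime], p ≠ 2 → ∀ (S : Finset Nat.Primes), pPrime p ∈ S →
    H1FiniteSpec S p →
    ∀ (N : Rep.{0, 0, 0} (ZMod p) GQ) [FiniteDimensional (ZMod p) N] (L₀ : Level S),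
    (∀ s ∈ L₀.U, ∀ n : N, N.ρ s n = n) →
    Finite (sha₁ S N) ∧
    ∃ L₁ : Level S, L₀ ≤ L₁ ∧ ∀ L : Level S, L₁ ≤ L →
      Nat.card (shaFin (decS L) (cf N L)) = Nat.card (sha₁ S N)

/-- **LIM1.** `∂ : T'_F → K_F` is a level-wise bijective morphism of systems. -/
def LIM1Spec : Prop :=
  ∀ (p : ℕ) [Fact p.Prime] (S : Finset Nat.Primes) (c : Ctx S p), c.Good →
    ∃ d : AddSys.Hom c.sysT1 c.sysK, d.LevelBij

/-- **LIM2 (capitulation).** `T'_F → T_F` (induced by `C'(F) ⊆ C(F)`) is eventually injective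
and eventually surjective. -/
def LIM2Spec : Prop :=
  ∀ (p : ℕ) [Fact p.Prime] (S : Finset Nat.Primes) (c : Ctx S p), c.Good →
    ∃ cc : AddSys.Hom c.sysT1 c.sysT, cc.EvInj ∧ cc.EvSurj

/-- **LIM3.** `|T_F| = |sha₁ S N|` and the transition maps of `T` are injective. -/
def LIM3Spec : Prop :=
  ∀ (p : ℕ) [Fact p.Prime] (S : Finset Nat.Primes) (c : Ctx S p), c.Good →
    (∀ L : c.Idx, Nat.card (c.sysT.obj L) = Nat.card (sha₁ S c.N)) ∧
    (∀ {L L' : c.Idx} (h : L ≤ L'), Function.Injective (c.sysT.tr h))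

/-- **LIM5.** There is a morphism of systems `e : Ш²_F → K_F` (edge map composed with the
biduality `M ≅ Hom_ℤ(N, E(F))`) which is eventually injective and eventually surjective. -/
def LIM5Spec : Prop :=
  ∀ (p : ℕ) [Fact p.Prime] (S : Finset Nat.Primes) (c : Ctx S p), c.Good →
    ∃ e : AddSys.Hom c.sysSh c.sysK, e.EvInj ∧ e.EvSurj

/-! ## The engine -/

/-- The counting statement for a good context. -/
theorem card_sha₂_eq (h1 : LIM1Spec) (h2 : LIM2Spec) (h3 : LIM3Spec) (h5 : LIM5Spec)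
    (c : Ctx S p) (hc : c.Good) :
    Finite (sha₂ S c.M) ∧ Nat.card (sha₂ S c.M) = Nat.card (sha₁ S c.N) := by
  obtain ⟨d, hd⟩ := h1 p S c hc
  obtain ⟨cc, hcc1, hcc2⟩ := h2 p S c hc
  obtain ⟨hcard, hinj⟩ := h3 p S c hc
  obtain ⟨e, he1, he2⟩ := h5 p S c hc
  have := hc.sha1fin
  have hs : 0 < Nat.card (sha₁ S c.N) := Nat.card_pos
  exact card_colim_eq (hX := c.sh_isColim) (e := e) (d := d) (c := cc) (hd := hd)
    (he_inj := he1) (he_surj := he2) (hc_inj := hcc1) (hc_surj := hcc2)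
    (hT_inj := fun {i j} h => hinj h) (s := Nat.card (sha₁ S c.N)) (hs := hs)
    (hT_card := hcard)

/-- From cardinalities to `DimEq`. -/
theorem dimEq_of_card (M : Rep.{0, 0, 0} (ZMod p) GQ)
    (h1 : Finite (sha₁ S (M.dualTwist (cycloChar p)))) (h2 : Finite (sha₂ S M))
    (h : Nat.card (sha₂ S M) = Nat.card (sha₁ S (M.dualTwist (cycloChar p)))) :
    DimEq S M := by
  have f1 : Module.Finite (ZMod p) (sha₁ S (M.dualTwist (cycloChar p))) := Module.Finite.of_finite
  have f2 : Module.Finite (ZMod p) (sha₂ S M) := Module.Finite.of_finite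
  refine ⟨f1, f2, ?_⟩
  have e1 := Module.natCard_eq_pow_finrank (K := ZMod p)
    (V := sha₁ S (M.dualTwist (cycloChar p)))
  have e2 := Module.natCard_eq_pow_finrank (K := ZMod p) (V := sha₂ S M)
  rw [Nat.card_zmod] at e1 e2
  have hp : 1 < p := (Fact.out : p.Prime).one_lt
  exact Nat.pow_right_injective hp (by
    show p ^ _ = p ^ _
    rw [← e1, ← e2, h])

/-- **THE ENGINE E1** (block LIM assembled): `EngineSpecFin` from the six leaves. -/
theorem engineSpecFin_of (hB : LIMBaseSpec) (h4 : LIM4Spec) (h1 : LIM1Spec) (h2 : LIM2Spec)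
    (h3 : LIM3Spec) (h5 : LIM5Spec) : EngineSpecFin := by
  intro p _ hp2 S hpS hT hG hL hU hF M _ hM
  obtain ⟨D, hD⟩ := hG
  obtain ⟨L₀, hμ, hM₀, hN₀⟩ := hB p hp2 S hpS M hM
  obtain ⟨L₁, h01, hnorm⟩ := hD.good.gd6 L₀ hμ
  have : FiniteDimensional (ZMod p) (M.dualTwist (cycloChar p)) :=
    inferInstanceAs (FiniteDimensional (ZMod p) (Module.Dual (ZMod p) M))
  obtain ⟨hfin, L₂, h02, hcard⟩ := h4 p hp2 S hpS hF (M.dualTwist (cycloChar p)) L₀ hN₀
  obtain ⟨Lb, hb1, hb2⟩ := exists_ge_ge L₁ L₂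
  have h0b : L₀ ≤ Lb := h01.trans hb1
  let c : Ctx S p :=
    { D := D
      M := M
      base := Lb
      h7 := hD.good.gd7a
      h7b := hD.good.gd7b
      h4 := hD.good.gd4
      hM := fun s hs m => hM₀ s (Level.U_anti h0b hs) m
      hN := fun s hs n => hN₀ s (Level.U_anti h0b hs) n }
  have hc : c.Good :=
    { hp2 := hp2
      hpS := hpS
      good := hD
      adm := hM
      fin := inferInstance
      mu := hμ.mono h0b
      tn := hT
      loc := hL
      div := hU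
      h1fin := hF
      norm := ⟨L₀, h0b, hμ, hN₀, fun L h => hnorm L (h0b.trans h) (hb1.trans h)⟩
      sha1 := fun L => hcard L.1 (hb2.trans L.2)
      sha1fin := hfin }
  obtain ⟨hfin2, hcard2⟩ := card_sha₂_eq h1 h2 h3 h5 c hc
  exact dimEq_of_card M hfin hfin2 hcard2

end

end Fermat.Agent.S55.E1.Lim
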