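/-
S55 — SCOREBOARD FILE (row-lead helper55).  NO sorry.

`S55_of_open` : the frozen statement S55 from EXACTLY the inputs which are still open:
* `EngineSpecFin`                          engine E1, block LIM          (helper474 + helper603)
* `OpenGlobalSpec`  = for all odd `p ∈ S`:
    `GAD.ExistenceSpecG S p`               gd6, existence mod p          (G-EXIST: helper121/233)
    `GAD.ClassModuleSpecG S p`             gd1, class module at p        (REC2-TOW helper417 / helper235)
    `GAD.JInjSpecG S p`                    gd3                           (REC2-TOW helper417 / helper59)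
    `GAD.InfInjSpecG S p`                  gd8                           (helper954 / helper661)
Everything else is plugged in from main: T6p, LocalSpec, GD9, GD10 (E1/Inputs.lean), GAD-SU, GAD-7b
(helper655), GAD-CAP (helper57), GD5b, the comparison isomorphism `GAD.isoC` (helper955).
-/
import Fermat.Agent.S55.E1.Inputs
import Fermat.Agent.S55.GAD.TorsH55
import Fermat.Agent.S55.GAD.Transport
import Fermat.Agent.S55.GAD.SUnitDictH655
import Fermat.Agent.S55.GAD.DivTransH655
import Fermat.Agent.S55.GAD.CapH57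

set_option autoImplicit false

open CategoryTheory Module groupCohomology ExtCitation

namespace Fermat.Agent.S55.E1

open Fermat.Agent.S55.Tow

/-- **The open global leaves**, in layer-G language (`GAD/Transport.lean`). -/
def OpenGlobalSpec : Prop :=
  ∀ (p : ℕ) [Fact p.Prime], p ≠ 2 → ∀ (S : Finset Nat.Primes), pPrime p ∈ S →
    GAD.ExistenceSpecG S p ∧ GAD.ClassModuleSpecG S p ∧ GAD.JInjSpecG S p ∧ GAD.InfInjSpecG S p

/-- The global input of the engine from the open global leaves. -/
theorem globalInput_of (h : OpenGlobalSpec) : GlobalInputSpec := by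
  intro p _ hp2 S hpS
  obtain ⟨hEx, hCM, hJ, hInf⟩ := h p hp2 S hpS
  exact GAD.H55.globalSpecFin_of (GAD.H655.sUnitDict S) (fun {_ _ _} => GAD.H655.divTrTrans S)
    (GAD.H57.capitulation S p Fact.out hpS) (GAD.existenceSpec_of_G S p hEx)
    (GAD.classModuleSpec_of_G S p hCM) (GAD.jInjSpec_of_G S p hJ)
    (fun {_ _} => GAD.infInjSpec_of_G S p hInf)

/-- **S55 from what is still open.** -/
theorem S55_of_open (hE : EngineSpecFin) (hG : OpenGlobalSpec)
    {p : ℕ} [Fact p.Prime] (hp2 : p ≠ 2) (S : Finset Nat.Primes) (hpS : pPrime p ∈ S)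
    (M : Rep (ZMod p) (AlgebraicClosure ℚ ≃ₐ[ℚ] AlgebraicClosure ℚ))
    [FiniteDimensional (ZMod p) M]
    (hsm : ∀ m : M, ∃ F : IntermediateField ℚ (AlgebraicClosure ℚ), FiniteDimensional ℚ F ∧
      ∀ s ∈ F.fixingSubgroup, M.ρ s m = m)
    (hMur : ∀ q : Nat.Primes, q ∉ S → ∀ A : ValuationSubring (AlgebraicClosure ℚ),
      A.LiesOverPrime (q : ℕ) → ∀ g ∈ A.inertiaSubgroupIn ℚ, M.ρ g = 1) :
    ∃ B : sha₁ S (M.dualTwist (cycloChar p)) →ₗ[ZMod p] sha₂ S M →ₗ[ZMod p] ZMod p,
      (∀ y, (∀ x, B y x = 0) → y = 0) ∧ (∀ x, (∀ y, B y x = 0) → x = 0) :=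
  S55_of_engine_global hE (globalInput_of hG) hp2 S hpS M hsm hMur

end Fermat.Agent.S55.E1
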